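import Fermat.Agent.GalCommon.Basic

/-!
# Further properties of Frobenius elements and inertia in `Gal(ℚ̄/ℚ)`
-/

set_option autoImplicit false
set_option linter.style.haveILetI false

noncomputable section

open Polynomial
open scoped Pointwise

namespace FLTAgent.GalCommon

local notation "Q̄" => AlgebraicClosure ℚ
local notation "Γ" => (AlgebraicClosure ℚ ≃ₐ[ℚ] AlgebraicClosure ℚ)

variable {A : ValuationSubring Q̄} {σ τ : Γ} {ℓ q : ℕ}

/-- Conjugation equivariance of Frobenius elements. -/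
theorem isFrobeniusAt_conj (h : A.IsFrobeniusAt σ q) (τ : Γ) :
    (τ • A).IsFrobeniusAt (τ * σ * τ⁻¹) q := by
  rw [isFrobeniusAt_iff] at h ⊢
  obtain ⟨hσ, hf⟩ := h
  refine ⟨?_, fun a ha => ?_⟩
  · rw [MulAction.mem_stabilizer_iff] at hσ ⊢
    rw [mul_smul, mul_smul, inv_smul_smul, hσ]
  · have ha' : τ⁻¹ a ∈ A := ValuationSubring.mem_pointwise_smul_iff_inv_smul_mem.mp ha
    have h2 := (map_mem_nonunits_iff (σ := τ)).mpr (hf _ ha')
    rwa [map_sub, map_pow, AlgEquiv.aut_inv, AlgEquiv.apply_symm_apply] at h2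

/-- Conjugation equivariance of inertia. -/
theorem mem_inertia_conj (h : σ ∈ A.inertiaSubgroupIn ℚ) (τ : Γ) :
    τ * σ * τ⁻¹ ∈ (τ • A).inertiaSubgroupIn ℚ := by
  rw [mem_inertiaSubgroupIn_iff] at h ⊢
  obtain ⟨hσ, hf⟩ := h
  refine ⟨?_, fun a ha => ?_⟩
  · rw [MulAction.mem_stabilizer_iff] at hσ ⊢
    rw [mul_smul, mul_smul, inv_smul_smul, hσ]
  · have ha' : τ⁻¹ a ∈ A := ValuationSubring.mem_pointwise_smul_iff_inv_smul_mem.mp ha
    have h2 := (map_mem_nonunits_iff (σ := τ)).mpr (hf _ ha')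
    rwa [map_sub, AlgEquiv.aut_inv, AlgEquiv.apply_symm_apply] at h2

/-- A Frobenius element times an inertia element is a Frobenius element. -/
theorem isFrobeniusAt_mul_inertia (h : A.IsFrobeniusAt σ q) (hτ : τ ∈ A.inertiaSubgroupIn ℚ) :
    A.IsFrobeniusAt (σ * τ) q := by
  obtain ⟨hσ, hf⟩ := h
  obtain ⟨g, hg, rfl⟩ := hτ
  refine ⟨mul_mem hσ g.2, fun y => ?_⟩
  have hgy : g • y = y := DFunLike.congr_fun (MonoidHom.mem_ker.mp hg) y
  change ((⟨σ, hσ⟩ : A.decompositionSubgroup ℚ) * g) • y = _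
  rw [mul_smul, hgy, hf]

/-- An inertia element times a Frobenius element is a Frobenius element. -/
theorem isFrobeniusAt_inertia_mul (h : A.IsFrobeniusAt σ q) (hτ : τ ∈ A.inertiaSubgroupIn ℚ) :
    A.IsFrobeniusAt (τ * σ) q := by
  obtain ⟨hσ, hf⟩ := h
  obtain ⟨g, hg, rfl⟩ := hτ
  refine ⟨mul_mem g.2 hσ, fun y => ?_⟩
  change (g * (⟨σ, hσ⟩ : A.decompositionSubgroup ℚ)) • y = _
  rw [mul_smul, hf]
  exact DFunLike.congr_fun (MonoidHom.mem_ker.mp hg) _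

/-- Two Frobenius elements at the same place differ by an element of inertia. -/
theorem inv_mul_mem_inertia (h : A.IsFrobeniusAt σ q) (h' : A.IsFrobeniusAt τ q) :
    σ⁻¹ * τ ∈ A.inertiaSubgroupIn ℚ := by
  obtain ⟨hσ, hf⟩ := h
  obtain ⟨hτ, hf'⟩ := h'
  refine ⟨⟨σ, hσ⟩⁻¹ * ⟨τ, hτ⟩, MonoidHom.mem_ker.mpr (RingEquiv.ext fun y => ?_), rfl⟩
  change ((⟨σ, hσ⟩ : A.decompositionSubgroup ℚ)⁻¹ * ⟨τ, hτ⟩) • y = _
  rw [RingAut.one_apply, mul_smul, hf', ← hf y, inv_smul_smul]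

theorem mul_inv_mem_inertia (h : A.IsFrobeniusAt σ q) (h' : A.IsFrobeniusAt τ q) :
    σ * τ⁻¹ ∈ A.inertiaSubgroupIn ℚ := by
  obtain ⟨hσ, hf⟩ := h
  obtain ⟨hτ, hf'⟩ := h'
  refine ⟨⟨σ, hσ⟩ * ⟨τ, hτ⟩⁻¹, MonoidHom.mem_ker.mpr (RingEquiv.ext fun y => ?_), rfl⟩
  change ((⟨σ, hσ⟩ : A.decompositionSubgroup ℚ) * ⟨τ, hτ⟩⁻¹) • y = _
  rw [RingAut.one_apply, mul_smul, hf, ← hf', smul_inv_smul]

/-- If the inertia subgroups at every place above `ℓ` are killed by a homomorphism, the image of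
Frobenius elements at `ℓ` form a single conjugacy class. -/
theorem map_frobenius_isConj {M : Type*} [Monoid M] (ρ : Γ →* M) (hℓ : ℓ.Prime)
    {A' : ValuationSubring Q̄} (hA : A.LiesOverPrime ℓ) (hA' : A'.LiesOverPrime ℓ)
    (hur : ∀ i ∈ A'.inertiaSubgroupIn ℚ, ρ i = 1)
    (h : A.IsFrobeniusAt σ q) (h' : A'.IsFrobeniusAt τ q) :
    ∃ g : Γ, ρ τ = ρ (g * σ * g⁻¹) := by
  obtain ⟨g, rfl⟩ := exists_smul_eq_of_liesOverPrime hℓ hA hA'
  refine ⟨g, ?_⟩
  have h1 := hur _ (inv_mul_mem_inertia (isFrobeniusAt_conj h g) h')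
  calc ρ τ = ρ ((g * σ * g⁻¹) * ((g * σ * g⁻¹)⁻¹ * τ)) := by rw [mul_inv_cancel_left]
    _ = ρ (g * σ * g⁻¹) := by rw [map_mul, h1, mul_one]

/-- Roots of unity of order prime to the residue characteristic are distinct modulo the place. -/
theorem eq_one_of_pow_eq_one_of_sub_mem {n : ℕ} (hℓ : ℓ.Prime) (hA : A.LiesOverPrime ℓ)
    (hn : ¬ ℓ ∣ n) {ζ : Q̄} (hζ : ζ ^ n = 1) (h : ζ - 1 ∈ A.nonunits) : ζ = 1 := by
  by_contra hne
  have hn0 : n ≠ 0 := by rintro rfl; exact hn (dvd_zero ℓ)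
  have hint : IsIntegral ℤ ζ :=
    IsIntegral.of_pow (Nat.pos_of_ne_zero hn0) (hζ ▸ isIntegral_one)
  let z : A := ⟨ζ, mem_of_isIntegral A hint⟩
  have hres : IsLocalRing.residue A z = 1 := by
    rw [← sub_eq_zero, ← map_one (IsLocalRing.residue A), ← map_sub,
      ← coe_mem_nonunits_iff_residue]
    exact h
  have hsum : (∑ i ∈ Finset.range n, z ^ i : A) = 0 := by
    apply Subtype.ext
    push_cast
    have := geom_sum_mul ζ n
    rw [hζ, sub_self, mul_eq_zero, sub_eq_zero] at this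
    exact this.resolve_right hne
  have h2 := congrArg (IsLocalRing.residue A) hsum
  simp only [map_sum, map_pow, hres, one_pow, Finset.sum_const, Finset.card_range, nsmul_eq_mul,
    mul_one, map_zero] at h2
  exact hn ((natCast_residue_eq_zero_iff hℓ hA n).mp h2)

theorem eq_of_pow_eq_one_of_sub_mem {n : ℕ} (hℓ : ℓ.Prime) (hA : A.LiesOverPrime ℓ)
    (hn : ¬ ℓ ∣ n) {ζ ξ : Q̄} (hζ : ζ ^ n = 1) (hξ : ξ ^ n = 1) (h : ζ - ξ ∈ A.nonunits) :
    ζ = ξ := by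
  have hn0 : n ≠ 0 := by rintro rfl; exact hn (dvd_zero ℓ)
  have hξ0 : ξ ≠ 0 := by rintro rfl; simp [zero_pow hn0] at hξ
  have hu : ζ * ξ⁻¹ = 1 := by
    refine eq_one_of_pow_eq_one_of_sub_mem hℓ hA hn (by rw [mul_pow, inv_pow, hζ, hξ, inv_one,
      one_mul]) ?_
    have hi : ξ⁻¹ ∈ A := mem_of_isIntegral A
      (IsIntegral.of_pow (Nat.pos_of_ne_zero hn0) (by rw [inv_pow, hξ, inv_one]; exact isIntegral_one))
    obtain ⟨hm, hmem⟩ := ValuationSubring.mem_nonunits_iff_exists_mem_maximalIdeal.mp h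
    have : ζ * ξ⁻¹ - 1 = (ζ - ξ) * ξ⁻¹ := by rw [sub_mul, mul_inv_cancel₀ hξ0]
    rw [this, ← show (((⟨_, hm⟩ : A) * ⟨_, hi⟩ : A) : Q̄) = (ζ - ξ) * ξ⁻¹ from rfl,
      ValuationSubring.coe_mem_nonunits_iff]
    exact Ideal.mul_mem_right _ _ hmem
  rwa [← div_eq_mul_inv, div_eq_one_iff_eq hξ0] at hu

/-- Frobenius acts on roots of unity of order prime to `ℓ` by `ζ ↦ ζ ^ ℓ`. -/
theorem frobenius_apply_of_pow_eq_one {n : ℕ} (hℓ : ℓ.Prime) (hA : A.LiesOverPrime ℓ)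
    (hn : ¬ ℓ ∣ n) (h : A.IsFrobeniusAt σ q) {ζ : Q̄} (hζ : ζ ^ n = 1) : σ ζ = ζ ^ q := by
  have hn0 : n ≠ 0 := by rintro rfl; exact hn (dvd_zero ℓ)
  exact eq_of_pow_eq_one_of_sub_mem hℓ hA hn (by rw [← map_pow, hζ, map_one])
    (by rw [← pow_mul, mul_comm, pow_mul, hζ, one_pow])
    ((isFrobeniusAt_iff.mp h).2 ζ (mem_of_isIntegral A
      (IsIntegral.of_pow (Nat.pos_of_ne_zero hn0) (hζ ▸ isIntegral_one))))

/-- Inertia fixes roots of unity of order prime to `ℓ`. -/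
theorem inertia_apply_of_pow_eq_one {n : ℕ} (hℓ : ℓ.Prime) (hA : A.LiesOverPrime ℓ)
    (hn : ¬ ℓ ∣ n) (h : σ ∈ A.inertiaSubgroupIn ℚ) {ζ : Q̄} (hζ : ζ ^ n = 1) : σ ζ = ζ := by
  have hn0 : n ≠ 0 := by rintro rfl; exact hn (dvd_zero ℓ)
  exact eq_of_pow_eq_one_of_sub_mem hℓ hA hn (by rw [← map_pow, hζ, map_one]) hζ
    ((mem_inertiaSubgroupIn_iff.mp h).2 ζ (mem_of_isIntegral A
      (IsIntegral.of_pow (Nat.pos_of_ne_zero hn0) (hζ ▸ isIntegral_one))))

/-! ### Finite ramification -/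

/-- An integral element moved by an automorphism is moved modulo all but finitely many primes. -/
theorem exists_finset_forall_inertia_fix {x : Q̄} (hx : IsIntegral ℤ x) :
    ∃ S : Finset ℕ, ∀ ℓ : ℕ, ℓ.Prime → ℓ ∉ S → ∀ A : ValuationSubring Q̄, A.LiesOverPrime ℓ →
      ∀ σ ∈ A.inertiaSubgroupIn ℚ, σ x = x := by
  classical
  obtain ⟨P, hPm, hPx⟩ := hx
  let roots := (P.map (algebraMap ℤ Q̄)).roots.toFinset
  -- for each nonzero integral element, a nonzero integer divisible by it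
  have key : ∀ d : Q̄, d ≠ 0 → IsIntegral ℤ d → ∃ m : ℕ, m ≠ 0 ∧ ∀ ℓ : ℕ, ℓ.Prime →
      ∀ A : ValuationSubring Q̄, A.LiesOverPrime ℓ → d ∈ A.nonunits → ℓ ∣ m := by
    intro d hd hint
    refine ⟨((minpoly ℤ d).coeff 0).natAbs, ?_, fun ℓ hℓ A hA hdA => ?_⟩
    · rw [Int.natAbs_ne_zero]
      intro h0
      obtain ⟨g, hg⟩ := X_dvd_iff.mpr h0
      have hirr := minpoly.irreducible hint
      rcases hirr.isUnit_or_isUnit hg with h1 | h1
      · exact not_isUnit_X h1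
      · have h2 := minpoly.aeval ℤ d
        rw [hg, map_mul, aeval_X, mul_eq_zero, or_iff_right hd] at h2
        obtain ⟨c, hc, rfl⟩ := Polynomial.isUnit_iff.mp h1
        rw [aeval_C, map_eq_zero_iff _ (RingHom.injective_int _)] at h2
        exact hc.ne_zero h2
    · rw [← Int.natCast_dvd, ← intCast_mem_nonunits_iff hℓ hA]
      have hmem : aeval d (minpoly ℤ d).divX ∈ A := by
        rw [aeval_eq_sum_range]
        exact sum_mem fun i _ => by
          rw [zsmul_eq_mul]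
          exact mul_mem (intCast_mem A _) (pow_mem (mem_of_isIntegral A hint) _)
      have h2 := minpoly.aeval ℤ d
      rw [← X_mul_divX_add (minpoly ℤ d), map_add, map_mul, aeval_X, aeval_C] at h2
      have h3 : (((minpoly ℤ d).coeff 0 : ℤ) : Q̄) = -(d * aeval d (minpoly ℤ d).divX) := by
        rw [eq_intCast] at h2
        exact eq_neg_of_add_eq_zero_right h2
      rw [h3]
      refine neg_mem ?_
      obtain ⟨hm, hmax⟩ := ValuationSubring.mem_nonunits_iff_exists_mem_maximalIdeal.mp hdA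
      exact ValuationSubring.mem_nonunits_iff_exists_mem_maximalIdeal.mpr
        ⟨mul_mem hm hmem, Ideal.mul_mem_right ⟨_, hmem⟩ _ hmax⟩
  choose m hm0 hmdvd using key
  have hrootint : ∀ y ∈ roots, IsIntegral ℤ y := fun y hy => by
    rw [Multiset.mem_toFinset, mem_roots', IsRoot.def, eval_map] at hy
    exact ⟨P, hPm, hy.2⟩
  refine ⟨roots.biUnion fun y => if h : x - y ≠ 0 ∧ IsIntegral ℤ (x - y) then
      (m _ h.1 h.2).primeFactors else ∅, fun ℓ hℓ hS A hA σ hσ => ?_⟩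
  by_contra hne
  have hy : σ x ∈ roots := by
    rw [Multiset.mem_toFinset, mem_roots', IsRoot.def, eval_map, ← aeval_def,
      show σ x = σ.toAlgHom.toRingHom.toIntAlgHom x from rfl, aeval_algHom_apply]
    exact ⟨(hPm.map _).ne_zero, by rw [aeval_def, hPx, map_zero]⟩
  have hd : x - σ x ≠ 0 := sub_ne_zero.mpr (Ne.symm hne)
  have hdi : IsIntegral ℤ (x - σ x) := IsIntegral.sub ⟨P, hPm, hPx⟩ (hrootint _ hy)
  apply hS
  rw [Finset.mem_biUnion]
  refine ⟨σ x, hy, ?_⟩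
  rw [dif_pos ⟨hd, hdi⟩, Nat.mem_primeFactors]
  refine ⟨hℓ, hmdvd _ hd hdi ℓ hℓ A hA ?_, hm0 _ _ _⟩
  have := (mem_inertiaSubgroupIn_iff.mp hσ).2 x (mem_of_isIntegral A ⟨P, hPm, hPx⟩)
  rw [← neg_sub]
  exact neg_mem this

/-- Every number field is unramified outside a finite set of primes. -/
theorem exists_finset_inertia_fix (L : IntermediateField ℚ Q̄) [FiniteDimensional ℚ L] :
    ∃ S : Finset ℕ, ∀ ℓ : ℕ, ℓ.Prime → ℓ ∉ S → ∀ A : ValuationSubring Q̄, A.LiesOverPrime ℓ →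
      ∀ σ ∈ A.inertiaSubgroupIn ℚ, ∀ x ∈ L, σ x = x := by
  classical
  obtain ⟨α, hα⟩ := Field.exists_primitive_element ℚ L
  obtain ⟨c, hc0, hc⟩ : ∃ c : ℤ, c ≠ 0 ∧ IsIntegral ℤ (c • (α : Q̄)) :=
    ((IsFractionRing.isAlgebraic_iff ℤ ℚ Q̄).mpr
      ((AlgebraicClosure.isAlgebraic ℚ).isAlgebraic (α : Q̄))).exists_integral_multiple
  obtain ⟨S, hS⟩ := exists_finset_forall_inertia_fix hc
  refine ⟨S, fun ℓ hℓ hℓS A hA σ hσ x hx => ?_⟩
  have h1 := hS ℓ hℓ hℓS A hA σ hσ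
  rw [map_zsmul, smul_right_inj hc0] at h1
  let F : IntermediateField ℚ Q̄ := IntermediateField.fixedField (Subgroup.zpowers σ)
  have hα' : (α : Q̄) ∈ F := fun g => by
    have : σ ∈ MulAction.stabilizer Γ (α : Q̄) := h1
    exact Subgroup.zpowers_le.mpr this g.2
  have hle : IntermediateField.adjoin ℚ {α} ≤ F.comap L.val :=
    IntermediateField.adjoin_simple_le_iff.mpr hα'
  have hx' : (⟨x, hx⟩ : L) ∈ F.comap L.val := hle (hα ▸ IntermediateField.mem_top)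
  exact hx' ⟨σ, Subgroup.mem_zpowers σ⟩

/-! ### Finite level -/

/-- Restriction of a Frobenius element to a finite normal subfield is an arithmetic Frobenius at
the prime cut out by the place. -/
theorem restrictNormal_sub_pow_mem (L : IntermediateField ℚ Q̄) [Normal ℚ L]
    (h : A.IsFrobeniusAt σ q) {x : L} (hx : IsIntegral ℤ x) :
    ((σ.restrictNormal L x : L) : Q̄) - (x : Q̄) ^ q ∈ A.nonunits := by
  rw [show ((σ.restrictNormal L x : L) : Q̄) = σ x from AlgEquiv.restrictNormal_commutes σ L x]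
  exact (isFrobeniusAt_iff.mp h).2 _ (mem_of_isIntegral A
    (hx.map (L.val.restrictScalars ℤ)))

end FLTAgent.GalCommon
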