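import Mathlib.FieldTheory.Galois.Profinite
import Mathlib.FieldTheory.IsAlgClosed.Basic
import Mathlib.RingTheory.Invariant.Profinite
import Mathlib.RingTheory.Polynomial.Content
import Mathlib.RingTheory.Valuation.LocalSubring
import Mathlib.RingTheory.IntegralClosure.Algebra.Basic
import Mathlib.RingTheory.Polynomial.RationalRoot
import Mathlib
import Fermat.Prelude.Def_EllipticCurve_FrobeniusTrace

/-!
# Places of `ℚ̄` and Frobenius elements

Basic API for valuation subrings of `AlgebraicClosure ℚ` lying over a rational prime: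
existence, transitivity of the Galois action, residue field, decomposition and inertia groups,
existence of Frobenius elements.
-/

set_option autoImplicit false
set_option linter.style.haveILetI false

noncomputable section

open Polynomial
open scoped Pointwise

namespace FLTAgent.GalCommon

local notation "Q̄" => AlgebraicClosure ℚ
local notation "Γ" => (AlgebraicClosure ℚ ≃ₐ[ℚ] AlgebraicClosure ℚ)

/-- The ring of algebraic integers inside `ℚ̄`. -/
abbrev Zbar : Subalgebra ℤ (AlgebraicClosure ℚ) := integralClosure ℤ (AlgebraicClosure ℚ)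

theorem normal_Qbar : Normal ℚ Q̄ :=
  haveI : IsAlgClosure ℚ Q̄ := ⟨inferInstance, AlgebraicClosure.isAlgebraic ℚ⟩
  IsAlgClosure.normal ℚ _

theorem isGalois_Qbar : IsGalois ℚ Q̄ :=
  haveI : Algebra.IsAlgebraic ℚ Q̄ := AlgebraicClosure.isAlgebraic ℚ
  haveI := normal_Qbar
  {}

/-- An element fixed by the whole Galois group is rational. -/
theorem exists_rat_of_fixed {x : Q̄} (hx : ∀ σ : Γ, σ x = x) : ∃ q : ℚ, algebraMap ℚ Q̄ q = x := by
  haveI := isGalois_Qbar
  exact IntermediateField.mem_bot.mp ((InfiniteGalois.mem_bot_iff_fixed x).mpr hx)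

/-- Every algebraic number is a root of a primitive integral polynomial. -/
theorem exists_isPrimitive_aeval_eq_zero (x : Q̄) :
    ∃ p : ℤ[X], p.IsPrimitive ∧ aeval x p = 0 := by
  have hx : IsAlgebraic ℚ x := (AlgebraicClosure.isAlgebraic ℚ).isAlgebraic x
  obtain ⟨p, hp0, hp⟩ := (IsFractionRing.isAlgebraic_iff ℤ ℚ Q̄).mpr hx
  exact ⟨p.primPart, p.isPrimitive_primPart, aeval_primPart_eq_zero hp0 hp⟩

theorem natCast_dvd_coeff_false {ℓ : ℕ} (hℓ : ℓ.Prime) {p : ℤ[X]} (hp : p.IsPrimitive) :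
    ¬ ∀ n : ℕ, (ℓ : ℤ) ∣ p.coeff n := by
  intro h
  have := hp (ℓ : ℤ) ((C_dvd_iff_dvd_coeff _ _).mpr h)
  rw [Int.isUnit_iff] at this
  have := hℓ.two_le
  omega

/-! ### Valuation subrings and the integral closure -/

section Places

variable (A : ValuationSubring Q̄)

theorem mem_of_isIntegral {x : Q̄} (hx : IsIntegral ℤ x) : x ∈ A := by
  have h : IsIntegral A x := hx.tower_top
  obtain ⟨y, hy⟩ := IsIntegrallyClosed.isIntegral_iff.mp h
  exact hy ▸ y.2

/-- The inclusion of the algebraic integers in a valuation subring. -/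
def toPlace : Zbar →+* A where
  toFun x := ⟨x.1, mem_of_isIntegral A x.2⟩
  map_one' := rfl
  map_mul' _ _ := rfl
  map_zero' := rfl
  map_add' _ _ := rfl

@[simp] theorem coe_toPlace (x : Zbar) : ((toPlace A x : A) : Q̄) = x := rfl

theorem isIntegral_of_forall_mem {y : Q̄} (h : ∀ V : ValuationSubring Q̄, y ∈ V) :
    IsIntegral ℤ y := by
  by_contra hy
  have hy' : y ∉ (Zbar).toSubring := hy
  haveI : IsIntegrallyClosedIn (Zbar).toSubring Q̄ :=
    inferInstanceAs (IsIntegrallyClosedIn Zbar Q̄)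
  obtain ⟨V, -, hV⟩ := Subring.exists_le_valuationSubring_of_isIntegrallyClosedIn hy'
  exact hV (h V)

/-- The centre of a valuation subring on the algebraic integers. -/
def center : Ideal Zbar := (IsLocalRing.maximalIdeal A).comap (toPlace A)

instance center_isPrime : (center A).IsPrime := Ideal.IsPrime.comap _

theorem mem_center_iff {x : Zbar} : x ∈ center A ↔ (x : Q̄) ∈ A.nonunits := by
  rw [center, Ideal.mem_comap, ← ValuationSubring.coe_mem_nonunits_iff]
  rfl

theorem coe_mem_nonunits_iff_residue {a : A} :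
    (a : Q̄) ∈ A.nonunits ↔ IsLocalRing.residue A a = 0 := by
  rw [ValuationSubring.coe_mem_nonunits_iff, IsLocalRing.residue_eq_zero_iff]

theorem one_notMem_nonunits : (1 : Q̄) ∉ A.nonunits := by
  rw [ValuationSubring.mem_nonunits_iff, map_one]
  exact lt_irrefl _

variable {A}

theorem intCast_mem_nonunits_iff {ℓ : ℕ} (hℓ : ℓ.Prime) (hA : A.LiesOverPrime ℓ) (n : ℤ) :
    (n : Q̄) ∈ A.nonunits ↔ (ℓ : ℤ) ∣ n := by
  have key : ∀ m : ℤ, (m : Q̄) ∈ A.nonunits ↔ IsLocalRing.residue A (m : A) = 0 := fun m => by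
    rw [← coe_mem_nonunits_iff_residue]; norm_cast
  have hℓ0 : IsLocalRing.residue A ((ℓ : ℤ) : A) = 0 := (key _).mp (by simpa [ValuationSubring.LiesOverPrime] using hA)
  constructor
  · intro hn
    by_contra hdvd
    obtain ⟨a, b, hab⟩ := (Int.isCoprime_iff_nat_coprime.mpr (by
      simpa using (hℓ.coprime_iff_not_dvd.mpr fun h => hdvd (Int.natCast_dvd.mpr h)))
      : IsCoprime (ℓ : ℤ) n)
    have h1 := congrArg (fun m : ℤ => IsLocalRing.residue A (m : A)) hab
    simp only [Int.cast_add, Int.cast_mul, Int.cast_one, map_add, map_mul, map_one, hℓ0,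
      (key n).mp hn, mul_zero, add_zero, zero_ne_one] at h1
  · rintro ⟨c, rfl⟩
    rw [key, Int.cast_mul, map_mul, hℓ0, zero_mul]

theorem natCast_mem_nonunits_iff {ℓ : ℕ} (hℓ : ℓ.Prime) (hA : A.LiesOverPrime ℓ) (n : ℕ) :
    (n : Q̄) ∈ A.nonunits ↔ ℓ ∣ n := by
  simpa [Int.natCast_dvd_natCast] using intCast_mem_nonunits_iff hℓ hA (n : ℤ)

theorem natCast_residue_eq_zero_iff {ℓ : ℕ} (hℓ : ℓ.Prime) (hA : A.LiesOverPrime ℓ) (n : ℕ) :
    (n : IsLocalRing.ResidueField A) = 0 ↔ ℓ ∣ n := by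
  rw [← natCast_mem_nonunits_iff hℓ hA, ← map_natCast (IsLocalRing.residue A),
    ← coe_mem_nonunits_iff_residue]
  norm_cast

theorem charP_residueField {ℓ : ℕ} (hℓ : ℓ.Prime) (hA : A.LiesOverPrime ℓ) :
    CharP (IsLocalRing.ResidueField A) ℓ :=
  ⟨natCast_residue_eq_zero_iff hℓ hA⟩

/-- The prime below a place is unique. -/
theorem liesOverPrime_unique {ℓ ℓ' : ℕ} (hℓ : ℓ.Prime) (hℓ' : ℓ'.Prime) (hA : A.LiesOverPrime ℓ)
    (hA' : A.LiesOverPrime ℓ') : ℓ = ℓ' :=
  (Nat.prime_dvd_prime_iff_eq hℓ hℓ').mp ((natCast_mem_nonunits_iff hℓ hA ℓ').mp hA')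

theorem comap_center {ℓ : ℕ} (hℓ : ℓ.Prime) (hA : A.LiesOverPrime ℓ) :
    (center A).comap (algebraMap ℤ Zbar) = Ideal.span {(ℓ : ℤ)} := by
  ext n
  rw [Ideal.mem_comap, mem_center_iff, Ideal.mem_span_singleton,
    ← intCast_mem_nonunits_iff hℓ hA]
  simp

theorem center_isMaximal {ℓ : ℕ} (hℓ : ℓ.Prime) (hA : A.LiesOverPrime ℓ) :
    (center A).IsMaximal := by
  haveI : Algebra.IsIntegral ℤ Zbar := IsIntegralClosure.isIntegral_algebra ℤ Q̄
  refine Ideal.isMaximal_of_isIntegral_of_isMaximal_comap (R := ℤ) (center A) ?_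
  rw [comap_center hℓ hA]
  exact PrincipalIdealRing.isMaximal_of_irreducible
    (Int.prime_iff_natAbs_prime.mpr (by simpa using hℓ)).irreducible

/-- Any element of a place is a quotient of algebraic integers, the denominator a unit at the
place. -/
theorem exists_mul_eq_of_mem {ℓ : ℕ} (hℓ : ℓ.Prime) (hA : A.LiesOverPrime ℓ) {x : Q̄}
    (hx : x ∈ A) : ∃ s : Zbar, s ∉ center A ∧ IsIntegral ℤ (x * s) := by
  obtain ⟨p, hp, hpx⟩ := exists_isPrimitive_aeval_eq_zero x
  -- `b k = ∑_{i ≥ k} c_i x^(i-k)`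
  let b : ℕ → Q̄ := fun k => aeval x (divX^[k] p)
  have hrec : ∀ k, b k = x * b (k + 1) + (p.coeff k : Q̄) := by
    intro k
    have hco : ∀ k n, (divX^[k] p).coeff n = p.coeff (n + k) := by
      intro k
      induction k with
      | zero => simp
      | succ k ih =>
        intro n
        rw [Function.iterate_succ_apply', coeff_divX, ih]
        ring_nf
    change aeval x (divX^[k] p) = _
    conv_lhs => rw [← X_mul_divX_add (divX^[k] p)]
    rw [map_add, map_mul, aeval_X, aeval_C, hco k 0, zero_add]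
    simp only [b, Function.iterate_succ_apply', eq_intCast]
  have hb0 : b 0 = 0 := hpx
  have hint : ∀ k, IsIntegral ℤ (b k) := by
    intro k
    refine isIntegral_of_forall_mem fun V => ?_
    rcases V.mem_or_inv_mem x with hV | hV
    · change aeval x (divX^[k] p) ∈ V
      rw [aeval_eq_sum_range]
      exact sum_mem fun i _ => by
        rw [zsmul_eq_mul]
        exact mul_mem (intCast_mem V _) (pow_mem hV _)
    · induction k with
      | zero => rw [hb0]; exact V.zero_mem
      | succ k ih =>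
        rcases eq_or_ne x 0 with rfl | hx0
        · change aeval (0 : Q̄) _ ∈ V
          rw [← coeff_zero_eq_aeval_zero']
          exact intCast_mem V _
        · have : b (k + 1) = x⁻¹ * (b k - (p.coeff k : Q̄)) := by
            rw [hrec k, add_sub_cancel_right, inv_mul_cancel_left₀ hx0]
          rw [this]
          exact mul_mem hV (sub_mem ih (intCast_mem V _))
  by_contra hcon
  push Not at hcon
  have hnu : ∀ k, b k ∈ A.nonunits := by
    intro k
    cases k with
    | zero => rw [hb0]; exact A.nonunits.zero_mem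
    | succ k =>
      by_contra hne
      refine hcon ⟨b (k + 1), hint (k + 1)⟩ (fun hmem => hne ((mem_center_iff A).mp hmem)) ?_
      have : x * b (k + 1) = b k - (p.coeff k : Q̄) := by rw [hrec k]; ring
      change IsIntegral ℤ (x * b (k + 1))
      rw [this]
      exact (hint k).sub (isIntegral_algebraMap (A := Q̄) (x := p.coeff k))
  refine natCast_dvd_coeff_false hℓ hp fun k => ?_
  rw [← intCast_mem_nonunits_iff hℓ hA]
  have h2 : x * b (k + 1) ∈ A.nonunits := by
    rw [ValuationSubring.mem_nonunits_iff, map_mul]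
    exact mul_lt_one_of_nonneg_of_lt_one_right ((A.valuation_le_one_iff x).mpr hx) zero_le
      (hnu (k + 1))
  have : (p.coeff k : Q̄) = b k + (-(x * b (k + 1))) := by rw [hrec k]; ring
  rw [this]
  exact A.nonunits.add_mem (hnu k) (A.nonunits.neg_mem h2)

end Places

/-! ### Residue field -/

section Residue

variable (A : ValuationSubring Q̄) {ℓ : ℕ}

/-- Reduction of algebraic integers at a place. -/
def redHom : Zbar →+* IsLocalRing.ResidueField A := (IsLocalRing.residue A).comp (toPlace A)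

theorem redHom_eq_zero_iff (x : Zbar) : redHom A x = 0 ↔ x ∈ center A :=
  IsLocalRing.residue_eq_zero_iff _

variable {A}

theorem exists_eval_eq_zero_Zbar {P : Zbar[X]} (hP : P.Monic) (hd : 0 < P.natDegree) :
    ∃ z : Zbar, P.eval z = 0 := by
  obtain ⟨z, hz⟩ := IsAlgClosed.exists_root (P.map (algebraMap Zbar Q̄)) (by
    rw [degree_eq_natDegree (hP.map _).ne_zero, hP.natDegree_map, Ne, Nat.cast_eq_zero]
    omega)
  rw [IsRoot.def, eval_map] at hz
  haveI : Algebra.IsIntegral ℤ Zbar := IsIntegralClosure.isIntegral_algebra ℤ Q̄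
  refine ⟨⟨z, isIntegral_trans (A := Zbar) z ⟨P, hP, hz⟩⟩, ?_⟩
  apply Subtype.ext
  have := hom_eval₂ P (RingHom.id Zbar) (algebraMap Zbar Q̄) ⟨z, isIntegral_trans (A := Zbar) z ⟨P, hP, hz⟩⟩
  rw [RingHom.comp_id, eval₂_id] at this
  exact this.trans hz

variable (A)

theorem redHom_surjective (hℓ : ℓ.Prime) (hA : A.LiesOverPrime ℓ) :
    Function.Surjective (redHom A) := by
  intro y
  obtain ⟨a, rfl⟩ := IsLocalRing.residue_surjective y
  obtain ⟨s, hs, hb⟩ := exists_mul_eq_of_mem hℓ hA a.2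
  obtain ⟨t, i, hi, hti⟩ := (center_isMaximal hℓ hA).exists_inv hs
  let b : Zbar := ⟨_, hb⟩
  refine ⟨b * t, ?_⟩
  have hst : redHom A t * redHom A s = 1 := by
    have := congrArg (redHom A) hti
    rwa [map_add, map_mul, map_one, (redHom_eq_zero_iff A i).mpr hi, add_zero] at this
  have hab : IsLocalRing.residue A a * redHom A s = redHom A b := by
    rw [redHom, RingHom.comp_apply, RingHom.comp_apply, ← map_mul]
    rfl
  rw [map_mul, ← hab, mul_assoc, mul_comm (redHom A s), hst, mul_one]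

/-- The residue field at a place above a prime is algebraically closed. -/
theorem isAlgClosed_residueField (hℓ : ℓ.Prime) (hA : A.LiesOverPrime ℓ) :
    IsAlgClosed (IsLocalRing.ResidueField A) := by
  refine IsAlgClosed.of_exists_root _ fun q hq hirr => ?_
  obtain ⟨P, hP, hPd, hPm⟩ := lifts_and_natDegree_eq_and_monic
    ((lifts_iff_coeff_lifts q).mpr fun n => redHom_surjective A hℓ hA _) hq
  obtain ⟨z, hz⟩ := exists_eval_eq_zero_Zbar hPm (hPd ▸ hirr.natDegree_pos)
  exact ⟨redHom A z, by rw [← hP, eval_map, eval₂_at_apply, hz, map_zero]⟩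

/-- The residue field at a place above a prime is algebraic over the prime field. -/
theorem isAlgebraic_residueField (hℓ : ℓ.Prime) (hA : A.LiesOverPrime ℓ)
    [Algebra (ZMod ℓ) (IsLocalRing.ResidueField A)] :
    Algebra.IsAlgebraic (ZMod ℓ) (IsLocalRing.ResidueField A) := by
  haveI : Fact ℓ.Prime := ⟨hℓ⟩
  refine ⟨fun y => ?_⟩
  obtain ⟨z, rfl⟩ := redHom_surjective A hℓ hA y
  obtain ⟨P, hPm, hPz⟩ : IsIntegral ℤ (z : Q̄) := z.2
  have hz : aeval z P = 0 := Subtype.ext (by
    rw [← Subalgebra.coe_val, ← aeval_algHom_apply, Subalgebra.coe_val]; exact hPz)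
  refine ⟨P.map (Int.castRingHom (ZMod ℓ)), (hPm.map _).ne_zero, ?_⟩
  rw [aeval_def, eval₂_map, Subsingleton.elim ((algebraMap (ZMod ℓ) _).comp (Int.castRingHom _))
    ((redHom A).comp (algebraMap ℤ Zbar)), ← hom_eval₂, ← aeval_def, hz, map_zero]

end Residue

/-! ### The Galois action on the algebraic integers -/

section Galois

@[simp] theorem coe_smul_Zbar (σ : Γ) (x : Zbar) : ((σ • x : Zbar) : Q̄) = σ x := rfl

theorem isInvariant_Zbar : Algebra.IsInvariant ℤ Zbar Γ := by
  refine ⟨fun b hb => ?_⟩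
  obtain ⟨q, hq⟩ := exists_rat_of_fixed (x := (b : Q̄)) fun σ => congrArg Subtype.val (hb σ)
  have hqi : IsIntegral ℤ q :=
    (isIntegral_algebraMap_iff (algebraMap ℚ Q̄).injective).mp (hq ▸ b.2)
  obtain ⟨n, hn⟩ := IsIntegrallyClosed.isIntegral_iff.mp hqi
  exact ⟨n, Subtype.ext (by rw [← hq, ← hn]; simp)⟩

theorem isOpen_stabilizer_Zbar (b : Zbar) :
    IsOpen (MulAction.stabilizer Γ b : Set Γ) := by
  haveI : FiniteDimensional ℚ (IntermediateField.adjoin ℚ {(b : Q̄)}) :=
    IntermediateField.adjoin.finiteDimensional b.2.tower_top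
  refine Subgroup.isOpen_mono ?_
    (IntermediateField.fixingSubgroup_isOpen (IntermediateField.adjoin ℚ {(b : Q̄)}))
  intro σ hσ
  exact Subtype.ext ((IntermediateField.mem_fixingSubgroup_iff _ σ).mp hσ _
    (IntermediateField.mem_adjoin_simple_self ℚ _))

theorem map_mem_nonunits_iff {σ : Γ} {A : ValuationSubring Q̄} {x : Q̄} :
    σ x ∈ (σ • A).nonunits ↔ x ∈ A.nonunits := by
  rw [ValuationSubring.mem_nonunits_iff_or, ValuationSubring.mem_nonunits_iff_or, map_eq_zero,
    ← map_inv₀, ← AlgEquiv.smul_def, ValuationSubring.smul_mem_pointwise_smul_iff]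

theorem liesOverPrime_smul {σ : Γ} {A : ValuationSubring Q̄} {ℓ : ℕ} (hA : A.LiesOverPrime ℓ) :
    (σ • A).LiesOverPrime ℓ := by
  unfold ValuationSubring.LiesOverPrime at *
  rwa [← map_natCast σ ℓ, map_mem_nonunits_iff]

theorem center_smul (σ : Γ) (A : ValuationSubring Q̄) : center (σ • A) = σ • center A := by
  ext x
  rw [Ideal.mem_pointwise_smul_iff_inv_smul_mem, mem_center_iff, mem_center_iff, coe_smul_Zbar,
    ← map_mem_nonunits_iff (σ := σ) (A := A), AlgEquiv.aut_inv, AlgEquiv.apply_symm_apply]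

/-- A place is determined by its centre on the algebraic integers. -/
theorem place_ext {A A' : ValuationSubring Q̄} {ℓ : ℕ} (hℓ : ℓ.Prime) (hA : A.LiesOverPrime ℓ)
    (hA' : A'.LiesOverPrime ℓ) (h : center A = center A') : A = A' := by
  have key : ∀ B B' : ValuationSubring Q̄, B.LiesOverPrime ℓ → center B = center B' → B ≤ B' := by
    intro B B' hB hc x hx
    obtain ⟨s, hs, hb⟩ := exists_mul_eq_of_mem hℓ hB hx
    rw [hc, mem_center_iff, ValuationSubring.mem_nonunits_iff_or, not_or, not_not] at hs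
    have := mul_mem (mem_of_isIntegral B' hb) hs.2
    rwa [mul_inv_cancel_right₀ hs.1] at this
  exact le_antisymm (key A A' hA h) (key A' A hA' h.symm)

/-- There is a place of `ℚ̄` above every prime. -/
theorem exists_liesOverPrime {ℓ : ℕ} (hℓ : ℓ.Prime) :
    ∃ A : ValuationSubring Q̄, A.LiesOverPrime ℓ := by
  let I : Ideal (Zbar).toSubring := Ideal.span {(ℓ : (Zbar).toSubring)}
  have hI : I ≠ ⊤ := by
    intro h
    obtain ⟨c, hc⟩ := Ideal.mem_span_singleton'.mp ((Ideal.eq_top_iff_one I).mp h)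
    have hc' : (c : Q̄) * (ℓ : Q̄) = 1 := by simpa using congrArg Subtype.val hc
    have hval : (c : Q̄) = algebraMap ℚ Q̄ (ℓ : ℚ)⁻¹ := by
      rw [map_inv₀, map_natCast]
      exact eq_inv_of_mul_eq_one_left hc'
    have hci : IsIntegral ℤ (c : Q̄) := c.2
    rw [hval, isIntegral_algebraMap_iff (algebraMap ℚ Q̄).injective] at hci
    obtain ⟨n, hn⟩ := IsIntegrallyClosed.isIntegral_iff.mp hci
    have : (n : ℚ) * ℓ = 1 := by
      rw [← eq_intCast (algebraMap ℤ ℚ), hn, inv_mul_cancel₀ (Nat.cast_ne_zero.mpr hℓ.ne_zero)]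
    have hn1 : (ℓ : ℤ) ∣ 1 := ⟨n, by rw [mul_comm]; exact_mod_cast this.symm⟩
    have := Int.le_of_dvd one_pos hn1
    have := hℓ.two_le
    omega
  obtain ⟨B, -, hB⟩ := Ideal.image_subset_nonunits_valuationSubring I hI
  exact ⟨B, hB ⟨(ℓ : (Zbar).toSubring), Ideal.mem_span_singleton_self _, by simp⟩⟩

/-- The Galois group permutes transitively the places above a given prime. -/
theorem exists_smul_eq_of_liesOverPrime {A A' : ValuationSubring Q̄} {ℓ : ℕ} (hℓ : ℓ.Prime)
    (hA : A.LiesOverPrime ℓ) (hA' : A'.LiesOverPrime ℓ) : ∃ σ : Γ, σ • A = A' := by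
  haveI := isGalois_Qbar
  haveI := isInvariant_Zbar
  letI : TopologicalSpace Zbar := ⊥
  haveI : DiscreteTopology Zbar := ⟨rfl⟩
  haveI : ContinuousSMul Γ Zbar := continuousSMul_iff_stabilizer_isOpen.mpr isOpen_stabilizer_Zbar
  obtain ⟨g, hg⟩ := Algebra.IsInvariant.exists_smul_of_under_eq_of_profinite (G := Γ)
    (center A) (center A') ((comap_center hℓ hA).trans (comap_center hℓ hA').symm)
  exact ⟨g, place_ext hℓ (liesOverPrime_smul hA) hA' (by rw [center_smul, hg])⟩

theorem smul_residue_eq {A : ValuationSubring Q̄} (g : A.decompositionSubgroup ℚ) (a : A) :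
    g • IsLocalRing.residue A a = IsLocalRing.residue A (g • a) :=
  (IsLocalRing.ResidueField.residue_smul _ g a).symm

theorem smul_redHom {A : ValuationSubring Q̄} (g : A.decompositionSubgroup ℚ) (z : Zbar) :
    g • redHom A z = redHom A ((g : Γ) • z) :=
  smul_residue_eq g _

/-- The decomposition group surjects onto the automorphisms of the residue field. -/
theorem exists_decomposition_lift {A : ValuationSubring Q̄} {ℓ : ℕ} (hℓ : ℓ.Prime)
    (hA : A.LiesOverPrime ℓ) (φ : IsLocalRing.ResidueField A ≃+* IsLocalRing.ResidueField A) :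
    ∃ g : A.decompositionSubgroup ℚ, ∀ y, g • y = φ y := by
  haveI := isGalois_Qbar
  haveI := isInvariant_Zbar
  letI : TopologicalSpace Zbar := ⊥
  haveI : DiscreteTopology Zbar := ⟨rfl⟩
  haveI : ContinuousSMul Γ Zbar := continuousSMul_iff_stabilizer_isOpen.mpr isOpen_stabilizer_Zbar
  let P : Ideal ℤ := (center A).under ℤ
  let e : (Zbar ⧸ center A) ≃+* IsLocalRing.ResidueField A :=
    (Ideal.quotEquivOfEq (by ext x; exact (redHom_eq_zero_iff A x).symm)).trans
      (RingHom.quotientKerEquivOfSurjective (redHom_surjective A hℓ hA))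
  have he : ∀ z : Zbar, e (Ideal.Quotient.mk _ z) = redHom A z := fun z => rfl
  let ψ : (Zbar ⧸ center A) ≃ₐ[ℤ ⧸ P] (Zbar ⧸ center A) :=
    { e.trans (φ.trans e.symm) with
      commutes' := by
        intro r
        obtain ⟨n, rfl⟩ := Ideal.Quotient.mk_surjective r
        change (e.trans (φ.trans e.symm)) (Ideal.Quotient.mk _ (algebraMap ℤ Zbar n)) = _
        rw [eq_intCast, map_intCast, map_intCast]
        exact (map_intCast (Ideal.Quotient.mk (center A)) n).symm.trans
          (congrArg _ (eq_intCast (algebraMap ℤ Zbar) n).symm) }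
  obtain ⟨⟨σ, hσ⟩, hσψ⟩ := Ideal.Quotient.stabilizerHom_surjective_of_profinite (G := Γ)
    P (center A) ψ
  have hdec : σ ∈ A.decompositionSubgroup ℚ := MulAction.mem_stabilizer_iff.mpr
    (place_ext hℓ (liesOverPrime_smul hA) hA (by rw [center_smul]; exact hσ))
  refine ⟨⟨σ, hdec⟩, fun y => ?_⟩
  obtain ⟨z, rfl⟩ := redHom_surjective A hℓ hA y
  have h2 := congrArg (fun f => e (f (Ideal.Quotient.mk (center A) z))) hσψ
  change e (Ideal.Quotient.mk (center A) (σ • z)) = e (e.symm (φ (e (Ideal.Quotient.mk _ z)))) at h2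
  rw [RingEquiv.apply_symm_apply, he, he] at h2
  rw [smul_redHom]
  exact h2

/-- Existence of Frobenius elements. -/
theorem exists_isFrobeniusAt {A : ValuationSubring Q̄} {ℓ : ℕ} (hℓ : ℓ.Prime)
    (hA : A.LiesOverPrime ℓ) : ∃ σ : Γ, A.IsFrobeniusAt σ ℓ := by
  haveI := charP_residueField hℓ hA
  haveI : ExpChar (IsLocalRing.ResidueField A) ℓ := .prime hℓ
  haveI := isAlgClosed_residueField A hℓ hA
  obtain ⟨g, hg⟩ := exists_decomposition_lift hℓ hA (frobeniusEquiv (IsLocalRing.ResidueField A) ℓ)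
  exact ⟨g, g.2, fun y => (hg y).trans (frobenius_def ..)⟩

theorem exists_place_frobenius {ℓ : ℕ} (hℓ : ℓ.Prime) :
    ∃ A : ValuationSubring Q̄, A.LiesOverPrime ℓ ∧ ∃ σ : Γ, A.IsFrobeniusAt σ ℓ := by
  obtain ⟨A, hA⟩ := exists_liesOverPrime hℓ
  exact ⟨A, hA, exists_isFrobeniusAt hℓ hA⟩

/-! ### Membership criteria -/

variable {A : ValuationSubring Q̄} {σ : Γ}

theorem map_mem_iff_of_mem_decomposition (hσ : σ ∈ A.decompositionSubgroup ℚ) {x : Q̄} :
    σ x ∈ A ↔ x ∈ A := by
  conv_lhs => rw [← MulAction.mem_stabilizer_iff.mp hσ]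
  exact ValuationSubring.smul_mem_pointwise_smul_iff

/-- Frobenius elements through congruences modulo the place. -/
theorem isFrobeniusAt_iff {q : ℕ} :
    A.IsFrobeniusAt σ q ↔
      σ ∈ A.decompositionSubgroup ℚ ∧ ∀ a ∈ A, σ a - a ^ q ∈ A.nonunits := by
  constructor
  · intro h
    refine ⟨h.mem_decompositionSubgroup, fun a ha => ?_⟩
    have h2 := h.smul_residue_eq (IsLocalRing.residue A ⟨a, ha⟩)
    rw [smul_residue_eq, ← map_pow, ← sub_eq_zero, ← map_sub,
      ← coe_mem_nonunits_iff_residue] at h2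
    exact h2
  · rintro ⟨hσ, h⟩
    refine ⟨hσ, fun y => ?_⟩
    obtain ⟨a, rfl⟩ := IsLocalRing.residue_surjective y
    rw [smul_residue_eq, ← map_pow, ← sub_eq_zero, ← map_sub, ← coe_mem_nonunits_iff_residue]
    exact h a a.2

/-- It suffices to test the decomposition condition on the centre. -/
theorem mem_decompositionSubgroup_iff_center {ℓ : ℕ} (hℓ : ℓ.Prime) (hA : A.LiesOverPrime ℓ) :
    σ ∈ A.decompositionSubgroup ℚ ↔ σ • center A = center A := by
  rw [MulAction.mem_stabilizer_iff]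
  refine ⟨fun h => by rw [← center_smul, h], fun h => ?_⟩
  exact place_ext hℓ (liesOverPrime_smul hA) hA (by rw [center_smul, h])

/-- Inertia through congruences modulo the place. -/
theorem mem_inertiaSubgroupIn_iff :
    σ ∈ A.inertiaSubgroupIn ℚ ↔
      σ ∈ A.decompositionSubgroup ℚ ∧ ∀ a ∈ A, σ a - a ∈ A.nonunits := by
  constructor
  · rintro ⟨g, hg, rfl⟩
    refine ⟨g.2, fun a ha => ?_⟩
    have h2 := DFunLike.congr_fun (MonoidHom.mem_ker.mp hg) (IsLocalRing.residue A ⟨a, ha⟩)
    change g • IsLocalRing.residue A ⟨a, ha⟩ = IsLocalRing.residue A ⟨a, ha⟩ at h2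
    rw [smul_residue_eq, ← sub_eq_zero, ← map_sub, ← coe_mem_nonunits_iff_residue] at h2
    exact h2
  · rintro ⟨hσ, h⟩
    refine ⟨⟨σ, hσ⟩, MonoidHom.mem_ker.mpr (RingEquiv.ext fun y => ?_), rfl⟩
    obtain ⟨a, rfl⟩ := IsLocalRing.residue_surjective y
    change (⟨σ, hσ⟩ : A.decompositionSubgroup ℚ) • IsLocalRing.residue A a = _
    rw [RingAut.one_apply, smul_residue_eq, ← sub_eq_zero, ← map_sub,
      ← coe_mem_nonunits_iff_residue]
    exact h a a.2

theorem inertiaSubgroupIn_le_decomposition (h : σ ∈ A.inertiaSubgroupIn ℚ) :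
    σ ∈ A.decompositionSubgroup ℚ :=
  (mem_inertiaSubgroupIn_iff.mp h).1

end Galois

end FLTAgent.GalCommon
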