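import Mathlib
import Fermat.Prelude.Def_GaloisRep_Adic

/-!
# Burnside's theorem for residually absolutely irreducible representations

The image of a residually absolutely irreducible adic representation spans all endomorphisms
(`span_range_eq_top`, from Burnside over an algebraically closed field and Nakayama), so the trace
pairing against it is nondegenerate (`eq_zero_of_forall_trace_mul_eq_zero`).
-/

set_option autoImplicit false
set_option linter.style.haveILetI false

noncomputable section

open scoped TensorProduct
open Module (End)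

namespace FLTAgent.GalCommon

local notation "Γ" => (AlgebraicClosure ℚ ≃ₐ[ℚ] AlgebraicClosure ℚ)

/-- Burnside: a subalgebra of `End V` acting irreducibly over an algebraically closed field is
everything. -/
theorem subalgebra_eq_top_of_irreducible {k V : Type*} [Field k] [IsAlgClosed k] [AddCommGroup V]
    [Module k V] [FiniteDimensional k V] [Nontrivial V] (R : Subalgebra k (End k V))
    (h : ∀ W : Submodule k V, (∀ r ∈ R, ∀ x ∈ W, r x ∈ W) → W = ⊥ ∨ W = ⊤) : R = ⊤ := by
  classical
  haveI : IsSimpleModule R V := by
    rw [isSimpleModule_iff]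
    haveI : Nontrivial (Submodule R V) := Submodule.nontrivial_iff R |>.mpr inferInstance
    refine ⟨fun W => ?_⟩
    rcases h (W.restrictScalars k) (fun r hr x hx => W.smul_mem (⟨r, hr⟩ : R) hx) with h1 | h1
    · exact Or.inl (by simpa using h1)
    · exact Or.inr (by simpa using h1)
  have hscal : ∀ g : End R V, ∃ c : k, ∀ v, g v = c • v := by
    intro g
    obtain ⟨c, hc⟩ := Module.End.exists_eigenvalue (g.restrictScalars k)
    refine ⟨c, fun v => ?_⟩
    have hne := Module.End.hasEigenvalue_iff.mp hc
    have htop := (h (Module.End.eigenspace (g.restrictScalars k) c) fun r hr x hx => by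
      rw [Module.End.mem_eigenspace_iff] at hx ⊢
      change g ((⟨r, hr⟩ : R) • x) = c • r x
      rw [map_smul]
      change r (g.restrictScalars k x) = c • r x
      rw [hx, map_smul]).resolve_left hne
    exact Module.End.mem_eigenspace_iff.mp (htop ▸ Submodule.mem_top (x := v))
  rw [eq_top_iff]
  intro f _
  let F : End (End R V) V :=
    { toFun := f
      map_add' := f.map_add
      map_smul' := fun g v => by
        obtain ⟨c, hc⟩ := hscal g
        simp only [Module.End.smul_def, RingHom.id_apply, hc, map_smul] }
  let b := Module.finBasis k V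
  obtain ⟨r, hr⟩ := jacobson_density F (Finset.univ.image b)
  have : f = (r : End k V) := b.ext fun i => hr (b i) (Finset.mem_image.mpr ⟨i, Finset.mem_univ i, rfl⟩)
  exact this ▸ r.2

theorem eq_zero_of_forall_trace_mul {A V : Type*} [CommRing A] [AddCommGroup V] [Module A V]
    [Module.Free A V] [Module.Finite A V] {X : End A V}
    (hX : ∀ Y : End A V, LinearMap.trace A V (Y * X) = 0) : X = 0 := by
  let b := Module.Free.chooseBasis A V
  refine b.ext fun j => b.repr.injective (Finsupp.ext fun i => ?_)
  have h := hX ((b.coord i).smulRight (b j))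
  rw [show (b.coord i).smulRight (b j) * X = ((b.coord i).comp X).smulRight (b j) from rfl,
    LinearMap.trace_smulRight] at h
  simpa using h

/-- Trace nondegeneracy transfers to spanning. -/
theorem eq_zero_of_forall_trace_mul_of_span {A V ι : Type*} [CommRing A] [AddCommGroup V]
    [Module A V] [Module.Free A V] [Module.Finite A V] {f : ι → End A V}
    (hf : Submodule.span A (Set.range f) = ⊤) {X : End A V}
    (hX : ∀ i, LinearMap.trace A V (f i * X) = 0) : X = 0 := by
  refine eq_zero_of_forall_trace_mul fun Y => ?_
  have hY : Y ∈ Submodule.span A (Set.range f) := hf ▸ Submodule.mem_top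
  induction hY using Submodule.span_induction with
  | mem x hx => obtain ⟨i, rfl⟩ := hx; exact hX i
  | zero => rw [zero_mul, map_zero]
  | add x y _ _ hx hy => rw [add_mul, map_add, hx, hy, add_zero]
  | smul a x _ hx => rw [smul_mul_assoc, map_smul, hx, smul_zero]

/-- An absolutely irreducible residual representation spans the endomorphism algebra. -/
theorem span_range_eq_top_residual {k : Type} [Field k] (ρ : ResidualGaloisRep k)
    (h : ρ.IsAbsolutelyIrreducible) : Submodule.span k (Set.range ρ.ρ) = ⊤ := by
  let K := AlgebraicClosure k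
  let ρK := ρ.baseChange K
  haveI : Nontrivial ρK.V :=
    Module.nontrivial_of_finrank_pos (R := K) (by rw [ρK.finrank_eq]; omega)
  have htop : Submodule.span K (Set.range ρK.ρ) = ⊤ := by
    have h1 := subalgebra_eq_top_of_irreducible (Algebra.adjoin K (Set.range ρK.ρ)) fun W hW =>
      h W fun σ x hx => hW _ (Algebra.subset_adjoin ⟨σ, rfl⟩) x hx
    have h2 := congrArg Subalgebra.toSubmodule h1
    rwa [Algebra.adjoin_eq_span, ← MonoidHom.coe_mrange, Submonoid.closure_eq,
      Algebra.top_toSubmodule, MonoidHom.coe_mrange] at h2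
  have hnd : ∀ X : End k ρ.V, (∀ σ, LinearMap.trace k ρ.V (ρ.ρ σ * X) = 0) → X = 0 := by
    intro X hX
    have h1 : X.baseChange K = 0 := by
      refine eq_zero_of_forall_trace_mul_of_span htop fun σ => ?_
      change LinearMap.trace K _ ((ρ.ρ σ).baseChange K * X.baseChange K) = 0
      rw [← LinearMap.baseChange_mul, LinearMap.trace_baseChange, hX, map_zero]
    refine LinearMap.ext fun v => ?_
    have h2 := LinearMap.congr_fun h1 ((1 : K) ⊗ₜ[k] v)
    rw [LinearMap.baseChange_tmul, LinearMap.zero_apply] at h2
    let b := Module.finBasis k ρ.V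
    refine b.repr.injective (Finsupp.ext fun i => ?_)
    have h3 := congrArg (fun w => (b.baseChange K).repr w i) h2
    simpa [Algebra.smul_def] using h3
  by_contra hne
  obtain ⟨φ, hφ0, hφ⟩ := Submodule.exists_dual_map_eq_bot_of_lt_top (lt_top_iff_ne_top.mpr hne)
    inferInstance
  let T : End k ρ.V →ₗ[k] Module.Dual k (End k ρ.V) :=
    LinearMap.mk₂ k (fun X Y => LinearMap.trace k ρ.V (Y * X))
      (fun a b c => by rw [mul_add, map_add]) (fun a b c => by rw [mul_smul_comm, map_smul])
      (fun a b c => by rw [add_mul, map_add]) (fun a b c => by rw [smul_mul_assoc, map_smul])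
  have hTinj : Function.Injective T := by
    rw [injective_iff_map_eq_zero]
    intro X hX
    exact eq_zero_of_forall_trace_mul fun Y => LinearMap.congr_fun hX Y
  obtain ⟨X, rfl⟩ := (LinearMap.injective_iff_surjective_of_finrank_eq_finrank
    Subspace.dual_finrank_eq.symm).mp hTinj φ
  refine hφ0 ?_
  rw [hnd X fun σ => ?_, map_zero]
  have := Submodule.mem_map_of_mem (f := T X) (Submodule.subset_span ⟨σ, rfl⟩ :
    ρ.ρ σ ∈ Submodule.span k (Set.range ρ.ρ))
  rwa [hφ, Submodule.mem_bot] at this

section Adic

variable {A : Type} [CommRing A] [IsLocalRing A]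

theorem mem_smul_top_of_baseChange_eq_zero {V : Type} [AddCommGroup V] [Module A V]
    [Module.Free A V] [Module.Finite A V] {f : End A V}
    (hf : f.baseChange (IsLocalRing.ResidueField A) = 0) :
    f ∈ IsLocalRing.maximalIdeal A • (⊤ : Submodule A (End A V)) := by
  let b := Module.Free.chooseBasis A V
  have hentry : ∀ i j, b.repr (f (b j)) i ∈ IsLocalRing.maximalIdeal A := by
    intro i j
    have h1 := LinearMap.congr_fun hf ((1 : IsLocalRing.ResidueField A) ⊗ₜ[A] b j)
    rw [LinearMap.baseChange_tmul, LinearMap.zero_apply] at h1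
    have h2 := congrArg (fun w => (b.baseChange (IsLocalRing.ResidueField A)).repr w i) h1
    rw [← IsLocalRing.residue_eq_zero_iff]
    simpa [Algebra.smul_def] using h2
  have hdec : f = ∑ j, ∑ i, b.repr (f (b j)) i • (b.coord j).smulRight (b i) := by
    refine b.ext fun l => ?_
    simp [Finsupp.single_apply, ite_smul, b.sum_repr]
  rw [hdec]
  exact sum_mem fun j _ => sum_mem fun i _ =>
    Submodule.smul_mem_smul (hentry i j) Submodule.mem_top

/-- A residually absolutely irreducible representation spans the endomorphism algebra. -/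
theorem span_range_eq_top (H : GaloisRepAdic A) (h : H.residual.IsAbsolutelyIrreducible) :
    Submodule.span A (Set.range H.ρ) = ⊤ := by
  rw [eq_top_iff]
  refine Submodule.le_of_le_smul_of_le_jacobson_bot (I := IsLocalRing.maximalIdeal A)
    Module.Finite.fg_top (IsLocalRing.jacobson_eq_maximalIdeal ⊥ bot_ne_top).ge ?_
  intro Y _
  let Yb : End (IsLocalRing.ResidueField A) H.residual.V := Y.baseChange (IsLocalRing.ResidueField A)
  have hY : Yb ∈ Submodule.span (IsLocalRing.ResidueField A) (Set.range H.residual.ρ) :=
    (span_range_eq_top_residual H.residual h) ▸ Submodule.mem_top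
  obtain ⟨c, hc⟩ := (Finsupp.mem_span_range_iff_exists_finsupp).mp hY
  choose a ha using fun σ => IsLocalRing.residue_surjective (c σ)
  let Z : End A H.V := ∑ σ ∈ c.support, a σ • H.ρ σ
  have hZ : (Y - Z).baseChange (IsLocalRing.ResidueField A) = 0 := by
    refine LinearMap.ext fun w => ?_
    induction w using TensorProduct.induction_on with
    | zero => simp
    | tmul x v =>
      rw [LinearMap.baseChange_tmul, LinearMap.sub_apply, TensorProduct.tmul_sub,
        LinearMap.zero_apply, sub_eq_zero]
      have h1 : Yb (x ⊗ₜ[A] v) = x ⊗ₜ[A] Y v := LinearMap.baseChange_tmul ..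
      have h2 : ∀ u : H.residual.V, (∑ σ ∈ c.support, c σ • H.residual.ρ σ) u =
          ∑ σ ∈ c.support, c σ • H.residual.ρ σ u := fun u => by
        simp only [LinearMap.sum_apply, LinearMap.smul_apply]
      rw [← h1, ← hc]
      simp only [Z, LinearMap.sum_apply, LinearMap.smul_apply, TensorProduct.tmul_sum,
        TensorProduct.tmul_smul]
      refine (h2 _).trans (Finset.sum_congr rfl fun σ _ => ?_)
      rw [← ha σ, ← IsLocalRing.ResidueField.algebraMap_eq]
      exact algebraMap_smul (R := A) (IsLocalRing.ResidueField A) (a σ) (x ⊗ₜ[A] H.ρ σ v)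
    | add x y hx hy => rw [map_add, hx, hy, map_add]
  rw [← add_sub_cancel Z Y]
  exact Submodule.add_mem_sup (sum_mem fun σ _ => Submodule.smul_mem _ _
    (Submodule.subset_span ⟨σ, rfl⟩)) (mem_smul_top_of_baseChange_eq_zero hZ)

/-- The trace pairing against the image is nondegenerate. -/
theorem eq_zero_of_forall_trace_mul_eq_zero (H : GaloisRepAdic A)
    (h : H.residual.IsAbsolutelyIrreducible) {X : End A H.V}
    (hX : ∀ g : Γ, LinearMap.trace A H.V (H.ρ g * X) = 0) : X = 0 :=
  eq_zero_of_forall_trace_mul_of_span (span_range_eq_top H h) hX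

/-- An element that leaves all traces unchanged acts trivially. -/
theorem eq_one_of_forall_trace_mul_eq (H : GaloisRepAdic A)
    (h : H.residual.IsAbsolutelyIrreducible) {i : Γ}
    (hi : ∀ g : Γ, H.trace (g * i) = H.trace g) : H.ρ i = 1 := by
  rw [← sub_eq_zero]
  refine eq_zero_of_forall_trace_mul_eq_zero H h fun g => ?_
  rw [mul_sub, mul_one, map_sub, ← map_mul, sub_eq_zero]
  exact hi g

end Adic

end FLTAgent.GalCommon
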