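import Mathlib

/-!
# Rank two endomorphisms: characteristic polynomial and traces of powers
-/

set_option autoImplicit false

noncomputable section

open Polynomial

namespace FLTAgent.GalCommon

variable {A V : Type*} [CommRing A] [AddCommGroup V] [Module A V] [Module.Free A V]
  [Module.Finite A V]

/-- Characteristic polynomial of an endomorphism of a free module of rank two. -/
theorem charpoly_eq_of_finrank_two [Nontrivial A] (hV : Module.finrank A V = 2)
    (f : Module.End A V) :
    LinearMap.charpoly f = X ^ 2 - C (LinearMap.trace A V f) * X + C (LinearMap.det f) := by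
  let b : Module.Basis (Fin 2) A V := Module.finBasisOfFinrankEq A V hV
  rw [← LinearMap.charpoly_toMatrix f b, Matrix.charpoly_fin_two,
    LinearMap.trace_eq_matrix_trace A b f, ← LinearMap.det_toMatrix b f]

theorem trace_eq_neg_coeff_one [Nontrivial A] (hV : Module.finrank A V = 2) (f : Module.End A V) :
    LinearMap.trace A V f = -(LinearMap.charpoly f).coeff 1 := by
  rw [charpoly_eq_of_finrank_two hV]
  simp [coeff_X_pow, coeff_C]

theorem det_eq_coeff_zero [Nontrivial A] (hV : Module.finrank A V = 2) (f : Module.End A V) :
    LinearMap.det f = (LinearMap.charpoly f).coeff 0 := by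
  rw [charpoly_eq_of_finrank_two hV]
  simp

/-- Trace and determinant read off from a characteristic polynomial `X² - tX + d`. -/
theorem trace_det_of_charpoly_eq [Nontrivial A] (hV : Module.finrank A V = 2) {f : Module.End A V}
    {t d : A} (h : LinearMap.charpoly f = X ^ 2 - C t * X + C d) :
    LinearMap.trace A V f = t ∧ LinearMap.det f = d := by
  rw [trace_eq_neg_coeff_one hV, det_eq_coeff_zero hV, h]
  simp [coeff_X_pow, coeff_C]

/-- The Dickson recursion: `dicksonTrace t d m` is the sum of the `m`-th powers of the roots of
`X² - tX + d`. -/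
def dicksonTrace {R : Type*} [CommRing R] (t d : R) : ℕ → R
  | 0 => 2
  | 1 => t
  | n + 2 => t * dicksonTrace t d (n + 1) - d * dicksonTrace t d n

theorem map_dicksonTrace {R S : Type*} [CommRing R] [CommRing S] (φ : R →+* S) (t d : R) :
    ∀ n, φ (dicksonTrace t d n) = dicksonTrace (φ t) (φ d) n
  | 0 => map_ofNat φ 2
  | 1 => rfl
  | n + 2 => by
    simp only [dicksonTrace, map_sub, map_mul, map_dicksonTrace φ t d (n + 1),
      map_dicksonTrace φ t d n]

/-- The trace of a power of a rank two endomorphism only depends on its trace and determinant. -/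
theorem trace_pow_eq [Nontrivial A] (hV : Module.finrank A V = 2) (f : Module.End A V) :
    ∀ n : ℕ, LinearMap.trace A V (f ^ n) =
      dicksonTrace (LinearMap.trace A V f) (LinearMap.det f) n
  | 0 => by rw [pow_zero, LinearMap.trace_one, hV]; norm_num [dicksonTrace]
  | 1 => by rw [pow_one]; rfl
  | n + 2 => by
    have h := LinearMap.aeval_self_charpoly f
    rw [charpoly_eq_of_finrank_two hV] at h
    simp only [map_add, map_sub, map_mul, map_pow, aeval_X, aeval_C] at h
    have h2 : f ^ (n + 2) = LinearMap.trace A V f • f ^ (n + 1) - LinearMap.det f • f ^ n := by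
      have h3 : (f ^ 2 - algebraMap A (Module.End A V) (LinearMap.trace A V f) * f +
          algebraMap A (Module.End A V) (LinearMap.det f)) * f ^ n = 0 := by rw [h, zero_mul]
      rw [add_mul, sub_mul, mul_assoc, ← pow_add, ← pow_succ', ← Algebra.smul_def,
        ← Algebra.smul_def, show 2 + n = n + 2 by ring, sub_add, sub_eq_zero] at h3
      exact h3
    rw [h2, map_sub, map_smul, map_smul, trace_pow_eq hV f (n + 1), trace_pow_eq hV f n]
    rfl

end FLTAgent.GalCommon
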