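import Fermat.Agent.GalCommon.Burnside
import Fermat.Agent.GalCommon.Dickson

/-!
# Carayol's theorem: residually absolutely irreducible representations are determined by traces
-/

set_option autoImplicit false
set_option linter.style.haveILetI false

noncomputable section

open scoped TensorProduct
open Module (End)

namespace FLTAgent.GalCommon

local notation "Γ" => (AlgebraicClosure ℚ ≃ₐ[ℚ] AlgebraicClosure ℚ)

section General

variable {A V₁ V₂ G : Type*} [CommRing A] [IsLocalRing A] [Monoid G]
  [AddCommGroup V₁] [Module A V₁] [Module.Free A V₁] [Module.Finite A V₁]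
  [AddCommGroup V₂] [Module A V₂] [Module.Free A V₂] [Module.Finite A V₂]
  {r₁ : G →* End A V₁} {r₂ : G →* End A V₂}

omit [IsLocalRing A] in
/-- The algebra map between endomorphism rings matching two representations with equal traces. -/
theorem exists_algHom_of_trace_eq (h₁ : Submodule.span A (Set.range r₁) = ⊤)
    (h₂ : Submodule.span A (Set.range r₂) = ⊤)
    (htr : ∀ g, LinearMap.trace A V₁ (r₁ g) = LinearMap.trace A V₂ (r₂ g)) :
    ∃ Θ : End A V₁ →ₐ[A] End A V₂, Function.Injective Θ ∧ ∀ g, Θ (r₁ g) = r₂ g := by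
  let L₁ := Finsupp.linearCombination A (r₁ : G → End A V₁)
  let L₂ := Finsupp.linearCombination A (r₂ : G → End A V₂)
  have htrL : ∀ (c : G →₀ A) (g : G),
      LinearMap.trace A V₁ (r₁ g * L₁ c) = LinearMap.trace A V₂ (r₂ g * L₂ c) := by
    intro c g
    simp only [L₁, L₂, Finsupp.linearCombination_apply, Finsupp.sum, Finset.mul_sum, map_sum,
      mul_smul_comm, map_smul, ← map_mul, htr]
  have hker : ∀ c, L₁ c = 0 ↔ L₂ c = 0 := by
    refine fun c => ⟨fun hc => ?_, fun hc => ?_⟩
    · refine eq_zero_of_forall_trace_mul_of_span h₂ fun g => ?_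
      rw [← htrL, hc, mul_zero, map_zero]
    · refine eq_zero_of_forall_trace_mul_of_span h₁ fun g => ?_
      rw [htrL, hc, mul_zero, map_zero]
  have hs₁ : Function.Surjective L₁ := by
    rw [← LinearMap.range_eq_top, Finsupp.range_linearCombination, h₁]
  let inv₁ := Function.surjInv hs₁
  have hspec : ∀ c, L₂ (inv₁ (L₁ c)) = L₂ c := fun c => by
    rw [← sub_eq_zero, ← map_sub, ← hker, map_sub, Function.surjInv_eq hs₁, sub_self]
  let Θ₀ : End A V₁ →ₗ[A] End A V₂ :=
    { toFun := fun X => L₂ (inv₁ X)
      map_add' := fun X Y => by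
        rw [← map_add, ← sub_eq_zero, ← map_sub, ← hker, map_sub, map_add,
          Function.surjInv_eq hs₁, Function.surjInv_eq hs₁, Function.surjInv_eq hs₁, sub_self]
      map_smul' := fun a X => by
        rw [RingHom.id_apply, ← map_smul, ← sub_eq_zero, ← map_sub, ← hker, map_sub, map_smul,
          Function.surjInv_eq hs₁, Function.surjInv_eq hs₁, sub_self] }
  have hr : ∀ g, Θ₀ (r₁ g) = r₂ g := fun g => by
    have := hspec (Finsupp.single g 1)
    simpa [L₁, L₂, Θ₀] using this
  have hmul : ∀ X Y, Θ₀ (X * Y) = Θ₀ X * Θ₀ Y := by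
    intro X Y
    have hX : X ∈ Submodule.span A (Set.range r₁) := h₁ ▸ Submodule.mem_top
    have hY : Y ∈ Submodule.span A (Set.range r₁) := h₁ ▸ Submodule.mem_top
    induction hX, hY using Submodule.span_induction₂ with
    | mem_mem x y hx hy =>
      obtain ⟨g, rfl⟩ := hx
      obtain ⟨g', rfl⟩ := hy
      rw [← map_mul, hr, hr, hr, map_mul]
    | zero_left y _ => rw [zero_mul, map_zero, zero_mul]
    | zero_right x _ => rw [mul_zero, map_zero, mul_zero]
    | add_left x y z _ _ _ hx hy => rw [add_mul, map_add, map_add, add_mul, hx, hy]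
    | add_right x y z _ _ _ hx hy => rw [mul_add, map_add, map_add, mul_add, hx, hy]
    | smul_left a x y _ _ hx => rw [smul_mul_assoc, map_smul, map_smul, smul_mul_assoc, hx]
    | smul_right a x y _ _ hx => rw [mul_smul_comm, map_smul, map_smul, mul_smul_comm, hx]
  refine ⟨AlgHom.ofLinearMap Θ₀ ?_ hmul, ?_, hr⟩
  · rw [← map_one r₁, hr, map_one]
  · change Function.Injective Θ₀
    rw [injective_iff_map_eq_zero]
    intro X hX
    rw [← Function.surjInv_eq hs₁ X, hker]
    exact hX

omit [Module.Free A V₂] [Module.Finite A V₂] in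
theorem residue_tmul_eq_zero {x : V₂}
    (hx : x ∈ IsLocalRing.maximalIdeal A • (⊤ : Submodule A V₂))
    (c : IsLocalRing.ResidueField A) : c ⊗ₜ[A] x = 0 := by
  refine Submodule.smul_induction_on (p := fun x => c ⊗ₜ[A] x = (0 : IsLocalRing.ResidueField A ⊗[A] V₂))
    hx ?_ ?_
  · intro a ha w _
    rw [TensorProduct.tmul_smul, TensorProduct.smul_tmul', Algebra.smul_def,
      IsLocalRing.ResidueField.algebraMap_eq, (IsLocalRing.residue_eq_zero_iff a).mpr ha,
      zero_mul, TensorProduct.zero_tmul]
  · intro x y hx hy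
    rw [TensorProduct.tmul_add, hx, hy, add_zero]

omit [Module.Free A V₂] in
theorem mem_smul_top_of_residue_tmul_eq_zero [Module.Free A V₂] {x : V₂}
    (hx : (1 : IsLocalRing.ResidueField A) ⊗ₜ[A] x = 0) :
    x ∈ IsLocalRing.maximalIdeal A • (⊤ : Submodule A V₂) := by
  let b := Module.Free.chooseBasis A V₂
  rw [← b.sum_repr x]
  refine sum_mem fun i _ => Submodule.smul_mem_smul ?_ Submodule.mem_top
  have h2 := congrArg (fun w => (b.baseChange (IsLocalRing.ResidueField A)).repr w i) hx
  rw [← IsLocalRing.residue_eq_zero_iff]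
  simpa [Algebra.smul_def] using h2

/-- An injective algebra map of endomorphism rings of free modules of the same rank over a local
ring is induced by a linear isomorphism. -/
theorem exists_linearEquiv_of_algHom [Nontrivial V₁]
    (hrank : Module.finrank A V₁ = Module.finrank A V₂)
    (Θ : End A V₁ →ₐ[A] End A V₂) :
    ∃ e : V₁ ≃ₗ[A] V₂, ∀ X v, e (X v) = Θ X (e v) := by
  classical
  let k := IsLocalRing.ResidueField A
  let b := Module.Free.chooseBasis A V₁
  haveI : Nonempty (Module.Free.ChooseBasisIndex A V₁) := b.index_nonempty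
  let i₀ : Module.Free.ChooseBasisIndex A V₁ := Classical.arbitrary _
  let sm : V₁ →ₗ[A] End A V₁ := LinearMap.smulRightₗ (b.coord i₀)
  have hsm : ∀ (X : End A V₁) v, X * sm v = sm (X v) := fun X v => by
    ext u; simp [sm]
  -- a vector in the image of the rank one idempotent which is nonzero modulo the maximal ideal
  obtain ⟨w, hw⟩ : ∃ y : V₂, (Θ (sm (b i₀)) y) ∉
      IsLocalRing.maximalIdeal A • (⊤ : Submodule A V₂) := by
    by_contra hcon
    push Not at hcon
    have hall : ∀ y : V₂, y ∈ IsLocalRing.maximalIdeal A • (⊤ : Submodule A V₂) := by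
      intro y
      have h1 : (1 : End A V₁) = ∑ j, (b.coord i₀).smulRight (b j) * (b.coord j).smulRight (b i₀) := by
        refine b.ext fun l => ?_
        rw [LinearMap.sum_apply, Finset.sum_eq_single l]
        · simp
        · intro j _ hj; simp [hj.symm]
        · intro hl; exact absurd (Finset.mem_univ l) hl
      have h3 : ∀ j, (b.coord i₀).smulRight (b j) * (b.coord j).smulRight (b i₀) =
          (b.coord i₀).smulRight (b j) * (sm (b i₀) * (b.coord j).smulRight (b i₀)) := by
        intro j; ext u; simp [sm]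
      have h2 : y = ∑ j, Θ ((b.coord i₀).smulRight (b j))
          (Θ (sm (b i₀)) (Θ ((b.coord j).smulRight (b i₀)) y)) := by
        conv_lhs => rw [← Module.End.one_apply (R := A) y, ← map_one Θ, h1]
        simp only [h3, map_sum, map_mul, LinearMap.sum_apply, Module.End.mul_apply]
      rw [h2]
      refine sum_mem fun j _ => ?_
      have h4 := Submodule.map_mono (f := Θ ((b.coord i₀).smulRight (b j)))
        (le_refl (IsLocalRing.maximalIdeal A • (⊤ : Submodule A V₂)))
      rw [Submodule.map_smul''] at h4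
      have h5 : (Θ ((b.coord i₀).smulRight (b j))) (Θ (sm (b i₀)) (Θ ((b.coord j).smulRight (b i₀)) y)) ∈
          Submodule.map (Θ ((b.coord i₀).smulRight (b j)))
            (IsLocalRing.maximalIdeal A • (⊤ : Submodule A V₂)) :=
        Submodule.mem_map_of_mem (hcon _)
      rw [Submodule.map_smul''] at h5
      exact Submodule.smul_mono le_rfl le_top h5
    have htop : (⊤ : Submodule A V₂) ≤ ⊥ := Submodule.le_of_le_smul_of_le_jacobson_bot
      (I := IsLocalRing.maximalIdeal A) Module.Finite.fg_top
      (IsLocalRing.jacobson_eq_maximalIdeal ⊥ bot_ne_top).ge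
      (fun y _ => Submodule.mem_sup_right (hall y))
    haveI : Subsingleton V₂ := ⟨fun x y => ((Submodule.mem_bot A).mp (htop trivial)).trans
      ((Submodule.mem_bot A).mp (htop trivial)).symm⟩
    have := hrank.trans Module.finrank_zero_of_subsingleton
    rw [Module.finrank_eq_card_chooseBasisIndex] at this
    exact Fintype.card_ne_zero this
  let Φ : V₁ →ₗ[A] V₂ := (LinearMap.applyₗ (Θ (sm (b i₀)) w)).comp (Θ.toLinearMap.comp sm)
  have hΦ : ∀ X v, Φ (X v) = Θ X (Φ v) := fun X v => by
    change Θ (sm (X v)) _ = Θ X (Θ (sm v) _)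
    rw [← hsm, map_mul, Module.End.mul_apply]
  let b₂ := Module.Free.chooseBasis A V₂
  have hli : LinearIndependent k fun j => (1 : k) ⊗ₜ[A] Φ (b j) := by
    rw [Fintype.linearIndependent_iff]
    intro c hc l
    choose a ha using fun j => IsLocalRing.residue_surjective (c j)
    have h1 : (1 : k) ⊗ₜ[A] Φ (∑ j, a j • b j) = 0 := by
      rw [← hc, map_sum, TensorProduct.tmul_sum]
      refine Finset.sum_congr rfl fun j _ => ?_
      rw [map_smul, TensorProduct.tmul_smul, ← ha j, ← IsLocalRing.ResidueField.algebraMap_eq,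
        algebraMap_smul]
    have h2 := congrArg ((Θ ((b.coord l).smulRight (b i₀))).baseChange k) h1
    rw [LinearMap.baseChange_tmul, map_zero, ← hΦ] at h2
    have h3 : Φ ((b.coord l).smulRight (b i₀) (∑ j, a j • b j)) = a l • Θ (sm (b i₀)) w := by
      have h5 : sm (b i₀) * sm (b i₀) = sm (b i₀) := by ext u; simp [sm]
      have h6 : b.coord l (∑ j, a j • b j) = a l := by
        simp [Finsupp.single_apply]
      rw [LinearMap.smulRight_apply, h6, map_smul]
      congr 1
      change Θ (sm (b i₀)) (Θ (sm (b i₀)) w) = _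
      rw [← Module.End.mul_apply, ← map_mul, h5]
    rw [h3, TensorProduct.tmul_smul, ← algebraMap_smul k (a l),
      IsLocalRing.ResidueField.algebraMap_eq, ha, smul_eq_zero] at h2
    exact h2.resolve_right fun h4 => hw (mem_smul_top_of_residue_tmul_eq_zero h4)
  have hsurj : Function.Surjective Φ := by
    have hspan := hli.span_eq_top_of_card_eq_finrank (by
      rw [← Module.finrank_eq_card_chooseBasisIndex, hrank, Module.finrank_baseChange])
    rw [← LinearMap.range_eq_top, eq_top_iff]
    refine Submodule.le_of_le_smul_of_le_jacobson_bot (I := IsLocalRing.maximalIdeal A)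
      Module.Finite.fg_top (IsLocalRing.jacobson_eq_maximalIdeal ⊥ bot_ne_top).ge ?_
    intro y _
    obtain ⟨c, hc⟩ := (Submodule.mem_span_range_iff_exists_fun k).mp
      (hspan.ge (trivial : (1 : k) ⊗ₜ[A] y ∈ ⊤))
    choose a ha using fun j => IsLocalRing.residue_surjective (c j)
    rw [← add_sub_cancel (Φ (∑ j, a j • b j)) y]
    refine Submodule.add_mem_sup ⟨_, rfl⟩ (mem_smul_top_of_residue_tmul_eq_zero ?_)
    rw [TensorProduct.tmul_sub, sub_eq_zero, ← hc, map_sum, TensorProduct.tmul_sum]
    refine Finset.sum_congr rfl fun j _ => ?_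
    rw [map_smul, TensorProduct.tmul_smul, ← ha j, ← IsLocalRing.ResidueField.algebraMap_eq,
      algebraMap_smul]
  let f := (LinearEquiv.ofFinrankEq V₂ V₁ hrank.symm)
  have hbij : Function.Bijective Φ := by
    refine ⟨?_, hsurj⟩
    have h1 := OrzechProperty.injective_of_surjective_endomorphism (f.toLinearMap.comp Φ)
      (f.surjective.comp hsurj)
    exact Function.Injective.of_comp (f := f) h1
  exact ⟨LinearEquiv.ofBijective Φ hbij, hΦ⟩

end General

section Galois

variable {A : Type} [CommRing A] [IsLocalRing A]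

/-- Residual absolute irreducibility is invariant under equivalence. -/
theorem isAbsolutelyIrreducible_of_isEquiv {k : Type} [Field k] {ρ₁ ρ₂ : ResidualGaloisRep k}
    (e : ρ₁.IsEquiv ρ₂) (h : ρ₁.IsAbsolutelyIrreducible) : ρ₂.IsAbsolutelyIrreducible := by
  obtain ⟨e⟩ := e
  let K := AlgebraicClosure k
  let f : (ρ₁.baseChange K).V ≃ₗ[K] (ρ₂.baseChange K).V :=
    e.toLinearEquiv.baseChange k K ρ₁.V ρ₂.V
  have hf : ∀ σ x, f ((ρ₁.baseChange K).ρ σ x) = (ρ₂.baseChange K).ρ σ (f x) :=
    fun σ x => by
      change e.toLinearEquiv.baseChange k K ρ₁.V ρ₂.V ((ρ₁.ρ σ).baseChange K x) =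
        (ρ₂.ρ σ).baseChange K (e.toLinearEquiv.baseChange k K ρ₁.V ρ₂.V x)
      induction x using TensorProduct.induction_on with
      | zero => simp only [map_zero]
      | tmul b v =>
        rw [LinearMap.baseChange_tmul, LinearEquiv.baseChange_tmul, LinearEquiv.baseChange_tmul,
          LinearMap.baseChange_tmul, e.map_apply]
      | add x y hx hy => simp only [map_add, hx, hy]
  intro W hW
  rcases h (W.comap f.toLinearMap) (fun σ x hx => by
    rw [Submodule.mem_comap] at hx ⊢
    rw [LinearEquiv.coe_coe, hf]; exact hW σ _ hx) with h1 | h1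
  · refine Or.inl (eq_bot_iff.mpr fun y hy => ?_)
    have : f.symm y ∈ W.comap f.toLinearMap := by simpa using hy
    rw [h1, Submodule.mem_bot] at this
    exact f.symm.map_eq_zero_iff.mp this
  · refine Or.inr (eq_top_iff.mpr fun y _ => ?_)
    have : f.symm y ∈ W.comap f.toLinearMap := h1 ▸ Submodule.mem_top
    simpa using this

/-- Carayol: residually absolutely irreducible representations with equal traces are equivalent. -/
theorem isEquiv_of_trace_eq (ρ₁ ρ₂ : GaloisRepAdic A)
    (h₁ : ρ₁.residual.IsAbsolutelyIrreducible) (h₂ : ρ₂.residual.IsAbsolutelyIrreducible)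
    (htr : ∀ g : Γ, ρ₁.trace g = ρ₂.trace g) : ρ₁.IsEquiv ρ₂ := by
  obtain ⟨Θ, -, hΘ⟩ := exists_algHom_of_trace_eq (span_range_eq_top ρ₁ h₁)
    (span_range_eq_top ρ₂ h₂) htr
  haveI : Nontrivial ρ₁.V :=
    Module.nontrivial_of_finrank_pos (R := A) (by rw [ρ₁.finrank_eq]; omega)
  obtain ⟨e, he⟩ := exists_linearEquiv_of_algHom (ρ₁.finrank_eq.trans ρ₂.finrank_eq.symm) Θ
  exact ⟨⟨e, fun σ x => by rw [he, hΘ]⟩⟩

end Galois

end FLTAgent.GalCommon
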